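import Mathlib
import Fermat.Prelude.Def_ModularCurve_GenusNumerics

/-!
# ES project, work package C2

The number of fixed points of `S` on `SL(2, ℤ) ⧸ Γ₀(N)` equals `nuTwo N`,
the number of roots of `x ^ 2 + 1` in `ZMod N`.

Model-free proof: the coset of `g = !![a, b; c, d]` is `S`-fixed iff `a ^ 2 + c ^ 2 = 0` in
`ZMod N`; the bijection sends a root `x` to the coset of `!![1, 0; x, 1]`, with inverse
`g ↦ c * d + a * b`.
-/

set_option autoImplicit false

open scoped MatrixGroups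

namespace Fermat.Agent.S21.C.H7

/-- The lower unipotent matrix `!![1, 0; t, 1]`. -/
def lowerUni (t : ℤ) : SL(2, ℤ) := ⟨!![1, 0; t, 1], by simp [Matrix.det_fin_two]⟩

@[simp] lemma lowerUni_apply_zero_zero (t : ℤ) : lowerUni t 0 0 = 1 := rfl
@[simp] lemma lowerUni_apply_zero_one (t : ℤ) : lowerUni t 0 1 = 0 := rfl
@[simp] lemma lowerUni_apply_one_zero (t : ℤ) : lowerUni t 1 0 = t := rfl
@[simp] lemma lowerUni_apply_one_one (t : ℤ) : lowerUni t 1 1 = 1 := rfl

/-- The lower-left entry of `g⁻¹ * h`. -/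
lemma inv_mul_apply_one_zero (g h : SL(2, ℤ)) :
    (g⁻¹ * h) 1 0 = g 0 0 * h 1 0 - g 1 0 * h 0 0 := by
  rw [Matrix.SpecialLinearGroup.coe_mul, Matrix.SpecialLinearGroup.SL2_inv_expl,
    Matrix.mul_apply, Fin.sum_univ_two]
  simp
  ring

/-- Two left cosets of `Γ₀(N)` agree iff the first columns are proportional mod `N`. -/
lemma mk_eq_mk_iff (N : ℕ) (g h : SL(2, ℤ)) :
    (QuotientGroup.mk g : SL(2, ℤ) ⧸ CongruenceSubgroup.Gamma0 N) = QuotientGroup.mk h ↔
      ((g 0 0 : ℤ) : ZMod N) * ((h 1 0 : ℤ) : ZMod N)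
        - ((g 1 0 : ℤ) : ZMod N) * ((h 0 0 : ℤ) : ZMod N) = 0 := by
  rw [QuotientGroup.eq, CongruenceSubgroup.Gamma0_mem, inv_mul_apply_one_zero]
  push_cast
  rfl

/-- The determinant relation, cast to `ZMod N`. -/
lemma det_cast (N : ℕ) (g : SL(2, ℤ)) :
    ((g 0 0 : ℤ) : ZMod N) * ((g 1 1 : ℤ) : ZMod N)
      - ((g 0 1 : ℤ) : ZMod N) * ((g 1 0 : ℤ) : ZMod N) = 1 := by
  have h := g.det_coe
  rw [Matrix.det_fin_two] at h
  have := congrArg (fun z : ℤ => (z : ZMod N)) h
  simpa using this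

lemma S_mul_apply_zero_zero (g : SL(2, ℤ)) : (ModularGroup.S * g) 0 0 = - g 1 0 := by
  rw [Matrix.SpecialLinearGroup.coe_mul, ModularGroup.coe_S, Matrix.mul_apply, Fin.sum_univ_two]
  simp

lemma S_mul_apply_one_zero (g : SL(2, ℤ)) : (ModularGroup.S * g) 1 0 = g 0 0 := by
  rw [Matrix.SpecialLinearGroup.coe_mul, ModularGroup.coe_S, Matrix.mul_apply, Fin.sum_univ_two]
  simp

/-- The coset of `g` is fixed by `S` iff `a ^ 2 + c ^ 2 = 0` in `ZMod N`. -/
lemma S_smul_mk_eq_iff (N : ℕ) (g : SL(2, ℤ)) :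
    ModularGroup.S • (QuotientGroup.mk g : SL(2, ℤ) ⧸ CongruenceSubgroup.Gamma0 N)
        = QuotientGroup.mk g ↔
      ((g 0 0 : ℤ) : ZMod N) ^ 2 + ((g 1 0 : ℤ) : ZMod N) ^ 2 = 0 := by
  rw [MulAction.Quotient.smul_mk, smul_eq_mul, eq_comm, mk_eq_mk_iff,
    S_mul_apply_zero_zero, S_mul_apply_one_zero]
  push_cast
  constructor <;> intro h <;> linear_combination h

end Fermat.Agent.S21.C.H7

namespace Fermat.Agent.S21.C

open Fermat.Agent.S21.C.H7

theorem fixCount_S_Gamma0 (N : ℕ) [NeZero N] :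
    Nat.card {x : SL(2, ℤ) ⧸ CongruenceSubgroup.Gamma0 N // ModularGroup.S • x = x}
      = ModularCurve.nuTwo N := by
  unfold ModularCurve.nuTwo
  symm
  refine Nat.card_eq_of_bijective
    (fun x : {x : ZMod N // x ^ 2 + 1 = 0} =>
      (⟨QuotientGroup.mk (lowerUni ((x.1.val : ℕ) : ℤ)), by
        rw [S_smul_mk_eq_iff]
        have hx := x.2
        simp only [lowerUni_apply_zero_zero, lowerUni_apply_one_zero, Int.cast_one,
          Int.cast_natCast, ZMod.natCast_zmod_val]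
        linear_combination hx⟩ :
        {x : SL(2, ℤ) ⧸ CongruenceSubgroup.Gamma0 N // ModularGroup.S • x = x})) ⟨?_, ?_⟩
  · -- injective
    rintro ⟨x, hx⟩ ⟨y, hy⟩ hxy
    have h := congrArg Subtype.val hxy
    simp only at h
    rw [mk_eq_mk_iff] at h
    simp only [lowerUni_apply_zero_zero, lowerUni_apply_one_zero, Int.cast_one,
      Int.cast_natCast, ZMod.natCast_zmod_val] at h
    ext
    simp only
    linear_combination -h
  · -- surjective
    rintro ⟨q, hq⟩
    induction q using QuotientGroup.induction_on with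
    | H g =>
      rw [S_smul_mk_eq_iff] at hq
      have hdet := det_cast N g
      set a : ZMod N := ((g 0 0 : ℤ) : ZMod N) with ha
      set b : ZMod N := ((g 0 1 : ℤ) : ZMod N) with hb
      set c : ZMod N := ((g 1 0 : ℤ) : ZMod N) with hc
      set d : ZMod N := ((g 1 1 : ℤ) : ZMod N) with hd
      have hx : (c * d + a * b) ^ 2 + 1 = 0 := by
        linear_combination (b ^ 2 + d ^ 2) * hq - (a * d - b * c + 1) * hdet
      refine ⟨⟨c * d + a * b, hx⟩, ?_⟩
      apply Subtype.ext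
      simp only
      rw [mk_eq_mk_iff]
      simp only [lowerUni_apply_zero_zero, lowerUni_apply_one_zero, Int.cast_one,
        Int.cast_natCast, ZMod.natCast_zmod_val]
      rw [← ha, ← hc]
      linear_combination (-c) * hdet - b * hq

end Fermat.Agent.S21.C
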