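import Mathlib
import Fermat.Prelude.Def_ModularCurve_GenusNumerics

/-!
# Fixed points of `S * T` on `SL(2, ℤ) ⧸ Γ₀(N)`

The number of cosets `g Γ₀(N)` fixed by left multiplication by `S * T` equals the number of
roots of `x ^ 2 + x + 1` in `ZMod N` (`ModularCurve.nuThree N`).

Direct proof: for `g = [[a, b], [c, d]]`, the coset `g Γ₀(N)` is fixed iff
`N ∣ a ^ 2 + a * c + c ^ 2`; then `a` is a unit modulo `N` and `g Γ₀(N) = [[1, 0], [l, 1]] Γ₀(N)`
for any integer `l` lifting `c / a`.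
-/

set_option autoImplicit false

open scoped MatrixGroups
open Matrix CongruenceSubgroup

namespace Fermat.Agent.S21.C

namespace FixST

/-- The lower unipotent matrix `[[1, 0], [l, 1]]`. -/
def lowerUni (l : ℤ) : SL(2, ℤ) :=
  ⟨!![1, 0; l, 1], by simp [Matrix.det_fin_two]⟩

@[simp] lemma lowerUni_apply_zero_zero (l : ℤ) : lowerUni l 0 0 = 1 := rfl
@[simp] lemma lowerUni_apply_zero_one (l : ℤ) : lowerUni l 0 1 = 0 := rfl
@[simp] lemma lowerUni_apply_one_zero (l : ℤ) : lowerUni l 1 0 = l := rfl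
@[simp] lemma lowerUni_apply_one_one (l : ℤ) : lowerUni l 1 1 = 1 := rfl

/-- Lower-left entry of `g⁻¹ * h`. -/
lemma inv_mul_apply_one_zero (g h : SL(2, ℤ)) :
    (g⁻¹ * h) 1 0 = -(g 1 0) * h 0 0 + g 0 0 * h 1 0 := by
  rw [Matrix.SpecialLinearGroup.coe_mul, Matrix.SpecialLinearGroup.coe_inv,
    Matrix.adjugate_fin_two, Matrix.mul_apply, Fin.sum_univ_two]
  simp

lemma mk_eq_mk_iff (N : ℕ) (g h : SL(2, ℤ)) :
    (QuotientGroup.mk g : SL(2, ℤ) ⧸ Gamma0 N) = QuotientGroup.mk h ↔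
      ((g 0 0 : ℤ) : ZMod N) * ((h 1 0 : ℤ) : ZMod N) =
        ((g 1 0 : ℤ) : ZMod N) * ((h 0 0 : ℤ) : ZMod N) := by
  rw [QuotientGroup.eq, Gamma0_mem, inv_mul_apply_one_zero]
  push_cast
  constructor
  · intro h1; linear_combination h1
  · intro h1; linear_combination h1


/-- Entries of `S * T`. -/
lemma coe_S_mul_T : ((ModularGroup.S * ModularGroup.T : SL(2, ℤ)) : Matrix (Fin 2) (Fin 2) ℤ) =
    !![0, -1; 1, 1] := by
  rw [Matrix.SpecialLinearGroup.coe_mul, ModularGroup.coe_S, ModularGroup.coe_T]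
  ext i j
  fin_cases i <;> fin_cases j <;> simp [Matrix.mul_apply, Fin.sum_univ_two]

lemma S_mul_T_mul_apply_zero_zero (g : SL(2, ℤ)) :
    (ModularGroup.S * ModularGroup.T * g) 0 0 = -(g 1 0) := by
  rw [Matrix.SpecialLinearGroup.coe_mul, coe_S_mul_T, Matrix.mul_apply, Fin.sum_univ_two]
  simp

lemma S_mul_T_mul_apply_one_zero (g : SL(2, ℤ)) :
    (ModularGroup.S * ModularGroup.T * g) 1 0 = g 0 0 + g 1 0 := by
  rw [Matrix.SpecialLinearGroup.coe_mul, coe_S_mul_T, Matrix.mul_apply, Fin.sum_univ_two]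
  simp

/-- Fixed-point criterion for `S * T`. -/
lemma ST_smul_mk_eq_iff (N : ℕ) (g : SL(2, ℤ)) :
    (ModularGroup.S * ModularGroup.T) • (QuotientGroup.mk g : SL(2, ℤ) ⧸ Gamma0 N) =
        QuotientGroup.mk g ↔
      ((g 0 0 : ℤ) : ZMod N) ^ 2 + ((g 0 0 : ℤ) : ZMod N) * ((g 1 0 : ℤ) : ZMod N) +
        ((g 1 0 : ℤ) : ZMod N) ^ 2 = 0 := by
  rw [MulAction.Quotient.smul_mk, smul_eq_mul, eq_comm, mk_eq_mk_iff, S_mul_T_mul_apply_zero_zero,
    S_mul_T_mul_apply_one_zero]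
  push_cast
  constructor
  · intro h1; linear_combination h1
  · intro h1; linear_combination h1


lemma det_cast (N : ℕ) (g : SL(2, ℤ)) :
    ((g 0 0 : ℤ) : ZMod N) * ((g 1 1 : ℤ) : ZMod N) -
      ((g 0 1 : ℤ) : ZMod N) * ((g 1 0 : ℤ) : ZMod N) = 1 := by
  have h := g.2
  rw [Matrix.det_fin_two] at h
  have h2 := congrArg (fun z : ℤ => (z : ZMod N)) h
  simp only [Int.cast_sub, Int.cast_mul, Int.cast_one] at h2
  exact h2

lemma val_intCast_cast (N : ℕ) [NeZero N] (r : ZMod N) : (((r.val : ℕ) : ℤ) : ZMod N) = r := by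
  rw [Int.cast_natCast, ZMod.natCast_zmod_val]

/-- The map from roots of `x ^ 2 + x + 1` in `ZMod N` to `S * T`-fixed cosets. -/
noncomputable def rootToFixST (N : ℕ) [NeZero N] (r : {x : ZMod N // x ^ 2 + x + 1 = 0}) :
    {x : SL(2, ℤ) ⧸ Gamma0 N // (ModularGroup.S * ModularGroup.T) • x = x} :=
  ⟨QuotientGroup.mk (lowerUni ((r.1.val : ℕ) : ℤ)), by
    rw [ST_smul_mk_eq_iff]
    rw [lowerUni_apply_zero_zero, lowerUni_apply_one_zero, val_intCast_cast, Int.cast_one]
    linear_combination r.2⟩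

lemma rootToFixST_injective (N : ℕ) [NeZero N] : Function.Injective (rootToFixST N) := by
  intro r s h
  have h1 := congrArg Subtype.val h
  simp only [rootToFixST] at h1
  rw [mk_eq_mk_iff, lowerUni_apply_zero_zero, lowerUni_apply_one_zero, lowerUni_apply_zero_zero,
    lowerUni_apply_one_zero, val_intCast_cast, val_intCast_cast, Int.cast_one] at h1
  apply Subtype.ext
  linear_combination -h1

lemma rootToFixST_surjective (N : ℕ) [NeZero N] : Function.Surjective (rootToFixST N) := by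
  rintro ⟨x, hx⟩
  obtain ⟨g, rfl⟩ := QuotientGroup.mk_surjective x
  rw [ST_smul_mk_eq_iff] at hx
  have hdet := det_cast N g
  set a : ZMod N := ((g 0 0 : ℤ) : ZMod N) with ha
  set b : ZMod N := ((g 0 1 : ℤ) : ZMod N) with hb
  set c : ZMod N := ((g 1 0 : ℤ) : ZMod N) with hc
  set d : ZMod N := ((g 1 1 : ℤ) : ZMod N) with hd
  set u : ZMod N := a * d ^ 2 - 2 * b * c * d - b ^ 2 * (a + c) with hu
  have hau : a * u = 1 := by
    rw [hu]
    linear_combination (a * d - b * c + 1) * hdet - b ^ 2 * hx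
  have hroot : (c * u) ^ 2 + c * u + 1 = 0 := by
    linear_combination u ^ 2 * hx - (c * u + a * u + 1) * hau
  refine ⟨⟨c * u, hroot⟩, ?_⟩
  apply Subtype.ext
  simp only [rootToFixST]
  rw [mk_eq_mk_iff, lowerUni_apply_zero_zero, lowerUni_apply_one_zero, val_intCast_cast,
    Int.cast_one]
  linear_combination -c * hau

end FixST

open FixST in
/-- **C3**: the number of cosets of `Γ₀(N)` fixed by `S * T` is `nuThree N`. -/
theorem fixCount_ST_Gamma0 (N : ℕ) [NeZero N] :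
    Nat.card {x : SL(2, ℤ) ⧸ CongruenceSubgroup.Gamma0 N //
        (ModularGroup.S * ModularGroup.T) • x = x} = ModularCurve.nuThree N := by
  rw [ModularCurve.nuThree]
  exact (Nat.card_congr (Equiv.ofBijective (rootToFixST N)
    ⟨rootToFixST_injective N, rootToFixST_surjective N⟩)).symm

end Fermat.Agent.S21.C
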