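import Fermat.Agent.S21.C.Model
import Fermat.Prelude.Def_ModularCurve_GenusNumerics

/-!
# Project ES, work package C1: `#ℙ¹(ℤ/N) = ψ(N)`

* `P1.map f` for a ring hom `f`, equivariant (`P1.map_smul`);
* `card_P1_congr` (ring isomorphisms), `card_P1_prod` (products);
* `card_P1_of_local`, `card_P1_zmod_prime_pow`;
* `dedekindPsi_mul_of_coprime`, `dedekindPsi_prime_pow`;
* `card_P1_zmod : Nat.card (P1 (ZMod N)) = dedekindPsi N`.
-/

set_option autoImplicit false

open scoped MatrixGroups

namespace Fermat.Agent.S21.C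

universe u v

section Map

variable {R : Type u} {S : Type v} [CommRing R] [CommRing S]

/-- functoriality of `P1` in the ring -/
def P1.map (f : R →+* S) : P1 R → P1 S :=
  Quotient.map (sa := primSetoid R) (sb := primSetoid S)
    (fun v => ⟨(f v.1.1, f v.1.2), IsCoprime.map v.2 f⟩)
    (fun v w h => by
      have h' : v.1.1 * w.1.2 = v.1.2 * w.1.1 := h
      show f v.1.1 * f w.1.2 = f v.1.2 * f w.1.1
      rw [← map_mul, ← map_mul, h'])

theorem P1.map_mk (f : R →+* S) (a c : R) (h : IsCoprime a c) :
    P1.map f (P1.mk a c h) = P1.mk (f a) (f c) (h.map f) := rfl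

theorem P1.map_smul (f : R →+* S) (g : SL(2, ℤ)) (x : P1 R) :
    P1.map f (g • x) = g • P1.map f x := by
  induction x using P1.ind with
  | _ a c hac =>
    rw [smul_mk, P1.map_mk, P1.map_mk, smul_mk]
    apply P1.mk_eq_mk
    simp only [map_add, map_mul, map_intCast]
    ring

theorem P1.map_bijective_of_equiv (e : R ≃+* S) :
    Function.Bijective (P1.map (e : R →+* S)) := by
  constructor
  · intro x y
    induction x using P1.ind with
    | _ a c hac =>
      induction y using P1.ind with
      | _ b d hbd =>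
        intro h
        rw [P1.map_mk, P1.map_mk, P1.mk_eq_mk_iff] at h
        apply P1.mk_eq_mk
        apply e.injective
        simpa using h
  · intro y
    induction y using P1.ind with
    | _ a c hac =>
      have hac' : IsCoprime (e.symm a) (e.symm c) := hac.map (e.symm : S →+* R)
      refine ⟨P1.mk (e.symm a) (e.symm c) hac', ?_⟩
      refine (P1.map_mk _ _ _ _).trans (P1.mk_eq_mk _ _ ?_)
      simp [mul_comm]

theorem card_P1_congr (e : R ≃+* S) : Nat.card (P1 R) = Nat.card (P1 S) :=
  Nat.card_congr (Equiv.ofBijective _ (P1.map_bijective_of_equiv e))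

/-- `ℙ¹(R × S) → ℙ¹(R) × ℙ¹(S)` -/
def P1.toProd (x : P1 (R × S)) : P1 R × P1 S :=
  (P1.map (RingHom.fst R S) x, P1.map (RingHom.snd R S) x)

theorem isCoprime_prod {a c : R} {a' c' : S} (h : IsCoprime a c) (h' : IsCoprime a' c') :
    IsCoprime ((a, a') : R × S) (c, c') := by
  obtain ⟨u, t, hut⟩ := h
  obtain ⟨u', t', hut'⟩ := h'
  refine ⟨(u, u'), (t, t'), ?_⟩
  ext
  · simpa using hut
  · simpa using hut'

theorem P1.toProd_bijective : Function.Bijective (P1.toProd (R := R) (S := S)) := by
  constructor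
  · intro x y
    induction x using P1.ind with
    | _ a c hac =>
      induction y using P1.ind with
      | _ b d hbd =>
        intro h
        unfold P1.toProd at h
        rw [Prod.mk.injEq, P1.map_mk, P1.map_mk, P1.map_mk, P1.map_mk, P1.mk_eq_mk_iff,
          P1.mk_eq_mk_iff] at h
        apply P1.mk_eq_mk
        ext
        · simpa using h.1
        · simpa using h.2
  · rintro ⟨y, y'⟩
    induction y using P1.ind with
    | _ a c hac =>
      induction y' using P1.ind with
      | _ a' c' hac' =>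
        refine ⟨P1.mk (a, a') (c, c') (isCoprime_prod hac hac'), ?_⟩
        unfold P1.toProd
        rw [P1.map_mk, P1.map_mk]
        rfl

theorem card_P1_prod : Nat.card (P1 (R × S)) = Nat.card (P1 R) * Nat.card (P1 S) := by
  rw [← Nat.card_prod]
  exact Nat.card_congr (Equiv.ofBijective _ P1.toProd_bijective)

end Map

section LocalCount

variable {R : Type u} [CommRing R]

/-- the parametrisation `c ↦ (1 : c)`, `a ↦ (a : 1)` (`a` a non-unit) -/
def localParam : R ⊕ {a : R // ¬ IsUnit a} → P1 R
  | Sum.inl c => P1.mk 1 c isCoprime_one_left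
  | Sum.inr a => P1.mk a.1 1 isCoprime_one_right

theorem localParam_bijective (hloc : ∀ a c : R, IsCoprime a c → IsUnit a ∨ IsUnit c) :
    Function.Bijective (localParam (R := R)) := by
  constructor
  · rintro (c | a) (c' | a') h
    · simp only [localParam, P1.mk_eq_mk_iff] at h
      simp only [Sum.inl.injEq]
      simpa using h.symm
    · exfalso
      simp only [localParam, P1.mk_eq_mk_iff] at h
      apply a'.2
      refine IsUnit.of_mul_eq_one c ?_
      rw [mul_comm]
      simpa using h.symm
    · exfalso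
      simp only [localParam, P1.mk_eq_mk_iff] at h
      apply a.2
      exact IsUnit.of_mul_eq_one c' (by simpa using h)
    · simp only [localParam, P1.mk_eq_mk_iff] at h
      simp only [Sum.inr.injEq]
      apply Subtype.ext
      simpa using h
  · intro x
    induction x using P1.ind with
    | _ a c hac =>
      by_cases ha : IsUnit a
      · obtain ⟨u, rfl⟩ := ha
        refine ⟨Sum.inl (c * ((u⁻¹ : Rˣ) : R)), ?_⟩
        simp only [localParam]
        apply P1.mk_eq_mk
        rw [one_mul, mul_assoc, Units.inv_mul, mul_one]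
      · have hc : IsUnit c := (hloc a c hac).resolve_left ha
        obtain ⟨u, rfl⟩ := hc
        have hnu : ¬ IsUnit (a * ((u⁻¹ : Rˣ) : R)) := by
          intro h
          apply ha
          have := h.mul u.isUnit
          rwa [mul_assoc, Units.inv_mul, mul_one] at this
        refine ⟨Sum.inr ⟨a * ((u⁻¹ : Rˣ) : R), hnu⟩, ?_⟩
        simp only [localParam]
        apply P1.mk_eq_mk
        rw [one_mul, mul_assoc, Units.inv_mul, mul_one]

theorem card_P1_of_local [Finite R] (hloc : ∀ a c : R, IsCoprime a c → IsUnit a ∨ IsUnit c) :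
    Nat.card (P1 R) = Nat.card R + Nat.card {a : R // ¬ IsUnit a} := by
  rw [← Nat.card_sum]
  exact (Nat.card_congr (Equiv.ofBijective _ (localParam_bijective hloc))).symm

theorem card_isUnit_add_card_not_isUnit [Finite R] :
    Nat.card Rˣ + Nat.card {a : R // ¬ IsUnit a} = Nat.card R := by
  have e1 : Nat.card Rˣ = Nat.card {a : R // IsUnit a} := by
    refine Nat.card_congr (Equiv.ofBijective (fun u : Rˣ => (⟨(u : R), u.isUnit⟩ : {a : R // IsUnit a})) ⟨?_, ?_⟩)
    · intro u w h
      exact Units.ext (congrArg Subtype.val h)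
    · rintro ⟨a, ⟨u, rfl⟩⟩
      exact ⟨u, rfl⟩
  rw [e1, ← Nat.card_sum]
  classical
  exact Nat.card_congr (Equiv.sumCompl (fun a : R => IsUnit a))

end LocalCount

section PrimePower

theorem isUnit_zmod_prime_pow_iff (p k : ℕ) (hp : p.Prime) (hk : 0 < k) (a : ZMod (p ^ k)) :
    IsUnit a ↔ ¬ p ∣ a.val := by
  have : NeZero (p ^ k) := ⟨pow_ne_zero _ hp.ne_zero⟩
  rw [← ZMod.natCast_zmod_val a, ZMod.isUnit_iff_coprime, ZMod.natCast_zmod_val,
    Nat.coprime_pow_right_iff hk, Nat.coprime_comm, hp.coprime_iff_not_dvd]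

theorem zmod_prime_pow_local (p k : ℕ) (hp : p.Prime) (hk : 0 < k) (a c : ZMod (p ^ k))
    (h : IsCoprime a c) : IsUnit a ∨ IsUnit c := by
  have : NeZero (p ^ k) := ⟨pow_ne_zero _ hp.ne_zero⟩
  by_contra hcon
  rw [not_or] at hcon
  obtain ⟨ha, hc⟩ := hcon
  rw [isUnit_zmod_prime_pow_iff p k hp hk, not_not] at ha hc
  have hpN : p ∣ p ^ k := dvd_pow_self p hk.ne'
  obtain ⟨u, t, hut⟩ := h
  have h1 := congrArg (ZMod.castHom hpN (ZMod p)) hut
  rw [map_add, map_mul, map_mul, map_one] at h1
  have ha0 : ZMod.castHom hpN (ZMod p) a = 0 := by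
    rw [← ZMod.natCast_zmod_val a, map_natCast, ZMod.natCast_eq_zero_iff]
    exact ha
  have hc0 : ZMod.castHom hpN (ZMod p) c = 0 := by
    rw [← ZMod.natCast_zmod_val c, map_natCast, ZMod.natCast_eq_zero_iff]
    exact hc
  rw [ha0, hc0, mul_zero, mul_zero, add_zero] at h1
  have : Fact p.Prime := ⟨hp⟩
  exact zero_ne_one h1

theorem card_P1_zmod_prime_pow (p k : ℕ) (hp : p.Prime) (hk : 0 < k) :
    Nat.card (P1 (ZMod (p ^ k))) = p ^ k + p ^ (k - 1) := by
  have : NeZero (p ^ k) := ⟨pow_ne_zero _ hp.ne_zero⟩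
  rw [card_P1_of_local (zmod_prime_pow_local p k hp hk)]
  have h1 := card_isUnit_add_card_not_isUnit (R := ZMod (p ^ k))
  have h2 : Nat.card (ZMod (p ^ k)) = p ^ k := by
    rw [Nat.card_eq_fintype_card, ZMod.card]
  have h3 : Nat.card (ZMod (p ^ k))ˣ = p ^ (k - 1) * (p - 1) := by
    rw [Nat.card_eq_fintype_card, ZMod.card_units_eq_totient, Nat.totient_prime_pow hp hk]
  rw [h2, h3] at h1
  rw [h2]
  have h4 : p ^ k = p ^ (k - 1) * p := by
    rw [← pow_succ, Nat.sub_add_cancel hk]
  have h5 : p ^ (k - 1) * (p - 1) + p ^ (k - 1) = p ^ (k - 1) * p := by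
    have h6 : p ^ (k - 1) * (p - 1) + p ^ (k - 1) = p ^ (k - 1) * (p - 1 + 1) := by ring
    rw [h6, Nat.sub_add_cancel hp.one_le]
  omega

end PrimePower

section Psi

open ModularCurve

/-- indicator of squarefree numbers as an arithmetic function -/
def sqfInd : ArithmeticFunction ℕ :=
  ⟨fun n => if Squarefree n then 1 else 0, by simp⟩

theorem sqfInd_apply (n : ℕ) : sqfInd n = if Squarefree n then 1 else 0 := rfl

theorem sqfInd_isMultiplicative : sqfInd.IsMultiplicative := by
  refine ⟨by simp [sqfInd_apply], ?_⟩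
  intro m n hmn
  simp only [sqfInd_apply, Nat.squarefree_mul hmn]
  by_cases hm : Squarefree m <;> by_cases hn : Squarefree n <;> simp [hm, hn]

theorem dedekindPsi_eq (N : ℕ) : dedekindPsi N = (sqfInd * ArithmeticFunction.id) N := by
  rw [ArithmeticFunction.mul_apply, dedekindPsi,
    Nat.sum_divisorsAntidiagonal (fun i j => sqfInd i * ArithmeticFunction.id j),
    Finset.sum_filter]
  refine Finset.sum_congr rfl (fun d _ => ?_)
  rw [sqfInd_apply, ArithmeticFunction.id_apply]
  split_ifs <;> simp

theorem dedekindPsi_mul_of_coprime {a b : ℕ} (h : a.Coprime b) :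
    dedekindPsi (a * b) = dedekindPsi a * dedekindPsi b := by
  rw [dedekindPsi_eq, dedekindPsi_eq, dedekindPsi_eq]
  exact (sqfInd_isMultiplicative.mul ArithmeticFunction.isMultiplicative_id).map_mul_of_coprime h

theorem dedekindPsi_prime_pow (p k : ℕ) (hp : p.Prime) (hk : 0 < k) :
    dedekindPsi (p ^ k) = p ^ k + p ^ (k - 1) := by
  rw [dedekindPsi, Nat.divisors_prime_pow hp, Finset.filter_map, Finset.sum_map]
  have hfilter : (Finset.range (k + 1)).filter
      ((fun d => Squarefree d) ∘ ⇑(⟨(p ^ ·), Nat.pow_right_injective hp.two_le⟩ : ℕ ↪ ℕ)) = {0, 1} := by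
    ext i
    simp only [Finset.mem_filter, Finset.mem_range, Function.comp_apply,
      Function.Embedding.coeFn_mk, Finset.mem_insert, Finset.mem_singleton]
    constructor
    · rintro ⟨_, hsq⟩
      by_cases hi : i = 0
      · exact Or.inl hi
      · right
        exact ((Nat.squarefree_pow_iff hp.ne_one hi).mp hsq).2
    · rintro (rfl | rfl)
      · exact ⟨by omega, by simp⟩
      · exact ⟨by omega, by simpa using hp.squarefree⟩
  rw [hfilter, Finset.sum_pair (by norm_num)]
  simp only [Function.Embedding.coeFn_mk, pow_zero, Nat.div_one, pow_one]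
  congr 1
  have h4 : p ^ k = p ^ (k - 1) * p := by
    rw [← pow_succ, Nat.sub_add_cancel hk]
  rw [h4, Nat.mul_div_cancel _ hp.pos]

end Psi

section Main

open ModularCurve CongruenceSubgroup

theorem card_P1_zmod_aux : ∀ N : ℕ, N ≠ 0 → Nat.card (P1 (ZMod N)) = dedekindPsi N := by
  intro N
  induction N using Nat.recOnPosPrimePosCoprime with
  | prime_pow p n hp hn =>
    intro _
    rw [card_P1_zmod_prime_pow p n hp hn, dedekindPsi_prime_pow p n hp hn]
  | zero => intro h; exact absurd rfl h
  | one =>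
    intro _
    rw [dedekindPsi_one]
    have : Subsingleton (ZMod 1) := by
      change Subsingleton (Fin 1)
      infer_instance
    have hsub : Subsingleton (P1 (ZMod 1)) := by
      constructor
      intro x y
      induction x using P1.ind with
      | _ a c hac =>
        induction y using P1.ind with
        | _ b d hbd =>
          apply P1.mk_eq_mk
          exact Subsingleton.elim _ _
    have : Nonempty (P1 (ZMod 1)) := ⟨P1.base⟩
    exact Nat.card_unique
  | coprime a b ha hb hab iha ihb =>
    intro _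
    have ha0 : a ≠ 0 := by omega
    have hb0 : b ≠ 0 := by omega
    rw [card_P1_congr (ZMod.chineseRemainder hab), card_P1_prod, iha ha0, ihb hb0,
      dedekindPsi_mul_of_coprime hab]

/-- `#ℙ¹(ℤ/N) = ψ(N)` -/
theorem card_P1_zmod (N : ℕ) [NeZero N] : Nat.card (P1 (ZMod N)) = dedekindPsi N :=
  card_P1_zmod_aux N (NeZero.ne N)

end Main

end Fermat.Agent.S21.C
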