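import Mathlib

/-!
# Project ES, package C4 (part 1): arithmetic of the cusps of `Γ₀(N)`

For coprime pairs `(a₁, c₁)`, `(a₂, c₂)` of integers (first columns of elements of `SL(2,ℤ)`)
we characterise the relation `∃ k, N ∣ a₂ c₁ - a₁ c₂ + k c₁ c₂` by the invariant
`(d, t)`, `d = gcd(c, N)`, `t = a * (c / d)⁻¹ mod gcd(d, N / d)`.
-/

set_option autoImplicit false

namespace Fermat.Agent.S21.C.Cusps

variable (N : ℕ)

/-- the level `gcd(c, N)` of a denominator -/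
def lev (c : ℤ) : ℕ := Int.gcd c N

/-- `gcd(d, N / d)` -/
def gg (d : ℕ) : ℕ := Nat.gcd d (N / d)

/-- the reduced denominator `c / gcd(c, N)` -/
def red (c : ℤ) : ℤ := c / (lev N c : ℤ)

lemma lev_dvd (c : ℤ) : lev N c ∣ N := by
  have h : ((lev N c : ℕ) : ℤ) ∣ (N : ℤ) := Int.gcd_dvd_right c N
  exact_mod_cast h

lemma lev_dvd_self (c : ℤ) : (lev N c : ℤ) ∣ c := Int.gcd_dvd_left c N

lemma lev_pos [NeZero N] (c : ℤ) : 0 < lev N c :=
  Nat.pos_of_dvd_of_pos (lev_dvd N c) (Nat.pos_of_ne_zero (NeZero.ne N))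

lemma lev_mul_red (c : ℤ) : (lev N c : ℤ) * red N c = c :=
  Int.mul_ediv_cancel' (lev_dvd_self N c)

lemma lev_mul_quot (c : ℤ) : lev N c * (N / lev N c) = N :=
  Nat.mul_div_cancel' (lev_dvd N c)

lemma gg_dvd_left (d : ℕ) : gg N d ∣ d := Nat.gcd_dvd_left _ _

lemma gg_dvd_right (d : ℕ) : gg N d ∣ N / d := Nat.gcd_dvd_right _ _

lemma gg_pos {d : ℕ} (hd : 0 < d) : 0 < gg N d :=
  Nat.pos_of_dvd_of_pos (gg_dvd_left N d) hd

lemma isCoprime_red_quot [NeZero N] (c : ℤ) :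
    IsCoprime (red N c) ((N / lev N c : ℕ) : ℤ) := by
  rw [Int.isCoprime_iff_gcd_eq_one]
  have h := Int.gcd_div_gcd_div_gcd (i := c) (j := (N : ℤ)) (lev_pos N c)
  have h2 : ((N / lev N c : ℕ) : ℤ) = (N : ℤ) / ((Int.gcd c N : ℕ) : ℤ) := by
    rw [Int.natCast_div]; rfl
  rw [h2]
  exact h

lemma isCoprime_red_gg [NeZero N] (c : ℤ) :
    IsCoprime (red N c) ((gg N (lev N c) : ℕ) : ℤ) := by
  have h := isCoprime_red_quot N c
  obtain ⟨m, hm⟩ := gg_dvd_right N (lev N c)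
  rw [hm] at h
  push_cast at h
  exact h.of_mul_right_left

lemma isCoprime_of_lev {a c : ℤ} (h : IsCoprime a c) : IsCoprime a (lev N c : ℤ) := by
  obtain ⟨m, hm⟩ := lev_dvd_self N c
  rw [hm] at h
  exact h.of_mul_right_left

lemma isCoprime_gg {a c : ℤ} (h : IsCoprime a c) :
    IsCoprime a ((gg N (lev N c) : ℕ) : ℤ) := by
  have h1 := isCoprime_of_lev N h
  obtain ⟨m, hm⟩ := gg_dvd_left N (lev N c)
  rw [hm] at h1
  push_cast at h1
  exact h1.of_mul_right_left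

/-- solvability of a linear congruence -/
lemma exists_dvd_add_mul {M r s : ℤ} (h : (Int.gcd s M : ℤ) ∣ r) :
    ∃ k : ℤ, M ∣ r + k * s := by
  obtain ⟨w, hw⟩ := h
  refine ⟨-(Int.gcdA s M * w), ⟨Int.gcdB s M * w, ?_⟩⟩
  have := Int.gcd_eq_gcd_ab s M
  rw [hw, this]
  ring

/-- The key arithmetic equivalence. -/
theorem core_iff [NeZero N] {a₁ c₁ a₂ c₂ : ℤ} (h₁ : IsCoprime a₁ c₁) (h₂ : IsCoprime a₂ c₂) :
    (∃ k : ℤ, (N : ℤ) ∣ a₂ * c₁ - a₁ * c₂ + k * (c₁ * c₂)) ↔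
      lev N c₁ = lev N c₂ ∧
        ((gg N (lev N c₁) : ℕ) : ℤ) ∣ a₂ * red N c₁ - a₁ * red N c₂ := by
  constructor
  · rintro ⟨k, hk⟩
    -- the levels agree
    have key : ∀ {a₁ c₁ a₂ c₂ : ℤ}, IsCoprime a₁ c₁ → ∀ k : ℤ,
        (N : ℤ) ∣ a₂ * c₁ - a₁ * c₂ + k * (c₁ * c₂) → lev N c₁ ∣ lev N c₂ := by
      intro a₁ c₁ a₂ c₂ h₁ k hk
      have hd : (lev N c₁ : ℤ) ∣ a₂ * c₁ - a₁ * c₂ + k * (c₁ * c₂) :=
        (Int.gcd_dvd_right c₁ N).trans hk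
      have hc : (lev N c₁ : ℤ) ∣ c₁ := lev_dvd_self N c₁
      have h3 : (lev N c₁ : ℤ) ∣ a₁ * c₂ := by
        have h4 : (lev N c₁ : ℤ) ∣ a₂ * c₁ + k * (c₁ * c₂) :=
          Dvd.dvd.add (hc.mul_left _) ((hc.mul_right _).mul_left _)
        have h5 := Dvd.dvd.sub h4 hd
        have : a₂ * c₁ + k * (c₁ * c₂) - (a₂ * c₁ - a₁ * c₂ + k * (c₁ * c₂)) = a₁ * c₂ := by ring
        rwa [this] at h5
      have h6 : (lev N c₁ : ℤ) ∣ c₂ :=
        (isCoprime_of_lev N h₁).symm.dvd_of_dvd_mul_left h3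
      have h7 : (lev N c₁ : ℤ) ∣ (lev N c₂ : ℤ) :=
        Int.dvd_coe_gcd h6 (Int.gcd_dvd_right c₁ N)
      exact_mod_cast h7
    have hk' : (N : ℤ) ∣ a₁ * c₂ - a₂ * c₁ + (-k) * (c₂ * c₁) := by
      have : a₁ * c₂ - a₂ * c₁ + (-k) * (c₂ * c₁) = -(a₂ * c₁ - a₁ * c₂ + k * (c₁ * c₂)) := by
        ring
      rw [this]
      exact hk.neg_right
    have hlev : lev N c₁ = lev N c₂ :=
      Nat.dvd_antisymm (key h₁ k hk) (key h₂ (-k) hk')
    refine ⟨hlev, ?_⟩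
    set d := lev N c₁ with hd
    have e₁ : (d : ℤ) * red N c₁ = c₁ := lev_mul_red N c₁
    have e₂ : (d : ℤ) * red N c₂ = c₂ := by rw [hlev]; exact lev_mul_red N c₂
    have hdpos : (0 : ℤ) < d := by exact_mod_cast lev_pos N c₁
    have hN : ((d * (N / d) : ℕ) : ℤ) = N := by exact_mod_cast lev_mul_quot N c₁
    -- divide by d
    have h8 : ((N / d : ℕ) : ℤ) ∣
        a₂ * red N c₁ - a₁ * red N c₂ + k * (d * (red N c₁ * red N c₂)) := by
      have h9 : (d : ℤ) * ((N / d : ℕ) : ℤ) ∣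
          (d : ℤ) * (a₂ * red N c₁ - a₁ * red N c₂ + k * (d * (red N c₁ * red N c₂))) := by
        have : (d : ℤ) * (a₂ * red N c₁ - a₁ * red N c₂ + k * (d * (red N c₁ * red N c₂)))
            = a₂ * ((d : ℤ) * red N c₁) - a₁ * ((d : ℤ) * red N c₂)
              + k * (((d : ℤ) * red N c₁) * ((d : ℤ) * red N c₂)) := by ring
        rw [this, e₁, e₂]
        have : (d : ℤ) * ((N / d : ℕ) : ℤ) = N := by
          rw [← hN]; push_cast; ring
        rw [this]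
        exact hk
      exact (mul_dvd_mul_iff_left hdpos.ne').mp h9
    have hg1 : ((gg N d : ℕ) : ℤ) ∣ ((N / d : ℕ) : ℤ) := by
      exact_mod_cast gg_dvd_right N d
    have hg2 : ((gg N d : ℕ) : ℤ) ∣ (d : ℤ) := by
      exact_mod_cast gg_dvd_left N d
    have h10 := hg1.trans h8
    have h11 : ((gg N d : ℕ) : ℤ) ∣ k * (d * (red N c₁ * red N c₂)) :=
      (hg2.mul_right _).mul_left _
    have h12 := Dvd.dvd.sub h10 h11
    simpa using h12
  · rintro ⟨hlev, hg⟩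
    set d := lev N c₁ with hd
    have e₁ : (d : ℤ) * red N c₁ = c₁ := lev_mul_red N c₁
    have e₂ : (d : ℤ) * red N c₂ = c₂ := by rw [hlev]; exact lev_mul_red N c₂
    have hN : ((d * (N / d) : ℕ) : ℤ) = N := by exact_mod_cast lev_mul_quot N c₁
    have hN' : (d : ℤ) * ((N / d : ℕ) : ℤ) = N := by
      rw [← hN]; push_cast; ring
    -- gcd (d * c₁' * c₂') (N / d) = gg
    have hc1 : IsCoprime (red N c₁) ((N / d : ℕ) : ℤ) := isCoprime_red_quot N c₁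
    have hc2 : IsCoprime (red N c₂) ((N / d : ℕ) : ℤ) := by
      have := isCoprime_red_quot N c₂
      rwa [← hlev] at this
    have hgcd : (Int.gcd ((d : ℤ) * (red N c₁ * red N c₂)) ((N / d : ℕ) : ℤ) : ℤ)
        ∣ ((gg N d : ℕ) : ℤ) := by
      have h1 : (Int.gcd ((d : ℤ) * (red N c₁ * red N c₂)) ((N / d : ℕ) : ℤ) : ℤ)
          ∣ ((N / d : ℕ) : ℤ) := Int.gcd_dvd_right _ _
      have h2 : (Int.gcd ((d : ℤ) * (red N c₁ * red N c₂)) ((N / d : ℕ) : ℤ) : ℤ)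
          ∣ (d : ℤ) * (red N c₁ * red N c₂) := Int.gcd_dvd_left _ _
      have hcop : IsCoprime
          (Int.gcd ((d : ℤ) * (red N c₁ * red N c₂)) ((N / d : ℕ) : ℤ) : ℤ)
          (red N c₁ * red N c₂) := by
        have h3 : IsCoprime ((N / d : ℕ) : ℤ) (red N c₁ * red N c₂) :=
          (hc1.mul_left hc2).symm
        exact IsCoprime.of_isCoprime_of_dvd_left h3 h1
      have h4 : (Int.gcd ((d : ℤ) * (red N c₁ * red N c₂)) ((N / d : ℕ) : ℤ) : ℤ) ∣ (d : ℤ) :=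
        hcop.dvd_of_dvd_mul_right h2
      have h5 : (Int.gcd ((d : ℤ) * (red N c₁ * red N c₂)) ((N / d : ℕ) : ℤ) : ℤ)
          ∣ ((Int.gcd (d : ℤ) ((N / d : ℕ) : ℤ) : ℕ) : ℤ) := Int.dvd_coe_gcd h4 h1
      rwa [Int.gcd_natCast_natCast] at h5
    obtain ⟨k, hk⟩ := exists_dvd_add_mul (hgcd.trans hg)
    refine ⟨k, ?_⟩
    rw [← hN', ← e₁, ← e₂]
    have : a₂ * ((d : ℤ) * red N c₁) - a₁ * ((d : ℤ) * red N c₂)
        + k * (((d : ℤ) * red N c₁) * ((d : ℤ) * red N c₂))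
        = (d : ℤ) * (a₂ * red N c₁ - a₁ * red N c₂ + k * ((d : ℤ) * (red N c₁ * red N c₂))) := by
      ring
    rw [this]
    exact mul_dvd_mul_left _ hk

end Fermat.Agent.S21.C.Cusps
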