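import Mathlib
import Fermat.Prelude.Def_ModularCurve_GenusNumerics
import Fermat.Agent.S21.C.CuspsArith

/-!
# Project ES, package C4: the number of cusps of `Γ₀(N)`

`#(⟨T⟩ \ SL(2,ℤ) / Γ₀(N)) = ∑_{d ∣ N} φ(gcd(d, N/d))`.
-/

set_option autoImplicit false

open scoped MatrixGroups

namespace Fermat.Agent.S21.C

namespace Cusps

variable (N : ℕ)

/-- second component of the cusp invariant: `a * (c / d)⁻¹ mod gcd(d, N / d)`, `d = gcd(c, N)` -/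
noncomputable def tinv (a c : ℤ) : ℕ :=
  (((a : ℤ) : ZMod (gg N (lev N c))) * ((red N c : ℤ) : ZMod (gg N (lev N c)))⁻¹).val

/-- the cusp invariant of a column `(a, c)` -/
noncomputable def cinv (a c : ℤ) : ℕ × ℕ := (lev N c, tinv N a c)

lemma val_eq_iff {g : ℕ} [NeZero g] {a₁ r₁ a₂ r₂ : ℤ}
    (hr₁ : IsUnit ((r₁ : ℤ) : ZMod g)) (hr₂ : IsUnit ((r₂ : ℤ) : ZMod g)) :
    (((a₁ : ℤ) : ZMod g) * ((r₁ : ℤ) : ZMod g)⁻¹).val
        = (((a₂ : ℤ) : ZMod g) * ((r₂ : ℤ) : ZMod g)⁻¹).val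
      ↔ (g : ℤ) ∣ a₂ * r₁ - a₁ * r₂ := by
  rw [(ZMod.val_injective g).eq_iff]
  have h1 : ((r₁ : ℤ) : ZMod g) * ((r₁ : ℤ) : ZMod g)⁻¹ = 1 := ZMod.mul_inv_of_unit _ hr₁
  have h2 : ((r₂ : ℤ) : ZMod g) * ((r₂ : ℤ) : ZMod g)⁻¹ = 1 := ZMod.mul_inv_of_unit _ hr₂
  have key : ((a₁ : ℤ) : ZMod g) * ((r₁ : ℤ) : ZMod g)⁻¹
        = ((a₂ : ℤ) : ZMod g) * ((r₂ : ℤ) : ZMod g)⁻¹
      ↔ (((a₁ * r₂ : ℤ) : ℤ) : ZMod g) = (((a₂ * r₁ : ℤ) : ℤ) : ZMod g) := by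
    push_cast
    constructor
    · intro h
      calc ((a₁ : ℤ) : ZMod g) * ((r₂ : ℤ) : ZMod g)
          = (((a₁ : ℤ) : ZMod g) * ((r₁ : ℤ) : ZMod g)⁻¹)
              * (((r₁ : ℤ) : ZMod g) * ((r₂ : ℤ) : ZMod g)) := by
            rw [mul_assoc, ← mul_assoc (((r₁ : ℤ) : ZMod g)⁻¹), mul_comm (((r₁ : ℤ) : ZMod g)⁻¹),
              h1, one_mul]
        _ = (((a₂ : ℤ) : ZMod g) * ((r₂ : ℤ) : ZMod g)⁻¹)
              * (((r₁ : ℤ) : ZMod g) * ((r₂ : ℤ) : ZMod g)) := by rw [h]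
        _ = ((a₂ : ℤ) : ZMod g) * ((r₁ : ℤ) : ZMod g) := by
            rw [mul_comm ((r₁ : ℤ) : ZMod g), mul_assoc,
              ← mul_assoc (((r₂ : ℤ) : ZMod g)⁻¹), mul_comm (((r₂ : ℤ) : ZMod g)⁻¹),
              h2, one_mul]
    · intro h
      calc ((a₁ : ℤ) : ZMod g) * ((r₁ : ℤ) : ZMod g)⁻¹
          = (((a₁ : ℤ) : ZMod g) * ((r₂ : ℤ) : ZMod g))
              * (((r₁ : ℤ) : ZMod g)⁻¹ * ((r₂ : ℤ) : ZMod g)⁻¹) := by
            rw [mul_comm (((r₁ : ℤ) : ZMod g)⁻¹), mul_assoc,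
              ← mul_assoc ((r₂ : ℤ) : ZMod g), h2, one_mul]
        _ = (((a₂ : ℤ) : ZMod g) * ((r₁ : ℤ) : ZMod g))
              * (((r₁ : ℤ) : ZMod g)⁻¹ * ((r₂ : ℤ) : ZMod g)⁻¹) := by rw [h]
        _ = ((a₂ : ℤ) : ZMod g) * ((r₂ : ℤ) : ZMod g)⁻¹ := by
            rw [mul_assoc, ← mul_assoc ((r₁ : ℤ) : ZMod g), h1, one_mul]
  rw [key, ZMod.intCast_eq_intCast_iff_dvd_sub]

lemma isUnit_red [NeZero N] (c : ℤ) :
    IsUnit ((red N c : ℤ) : ZMod (gg N (lev N c))) := by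
  rw [ZMod.coe_int_isUnit_iff_isCoprime]
  exact (isCoprime_red_gg N c).symm

lemma isUnit_num {a c : ℤ} (h : IsCoprime a c) :
    IsUnit ((a : ℤ) : ZMod (gg N (lev N c))) := by
  rw [ZMod.coe_int_isUnit_iff_isCoprime]
  exact (isCoprime_gg N h).symm

/-- The invariant separates exactly the classes of the cusp relation. -/
theorem cinv_eq_iff [NeZero N] {a₁ c₁ a₂ c₂ : ℤ} (h₁ : IsCoprime a₁ c₁) (h₂ : IsCoprime a₂ c₂) :
    cinv N a₁ c₁ = cinv N a₂ c₂ ↔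
      ∃ k : ℤ, (N : ℤ) ∣ a₂ * c₁ - a₁ * c₂ + k * (c₁ * c₂) := by
  rw [core_iff N h₁ h₂]
  unfold cinv
  rw [Prod.mk.injEq]
  refine and_congr_right fun hlev => ?_
  have : NeZero (gg N (lev N c₁)) := ⟨(gg_pos N (lev_pos N c₁)).ne'⟩
  have hu₂ : IsUnit ((red N c₂ : ℤ) : ZMod (gg N (lev N c₁))) := by
    rw [hlev]; exact isUnit_red N c₂
  have ht : tinv N a₂ c₂
      = (((a₂ : ℤ) : ZMod (gg N (lev N c₁))) * ((red N c₂ : ℤ) : ZMod (gg N (lev N c₁)))⁻¹).val := by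
    unfold tinv
    rw [← hlev]
  rw [ht]
  unfold tinv
  exact val_eq_iff (isUnit_red N c₁) hu₂

/-- the set of values of the invariant -/
def target : Finset (ℕ × ℕ) :=
  N.divisors.biUnion fun d =>
    ({t ∈ Finset.range (gg N d) | (gg N d).Coprime t}).image fun t => (d, t)

lemma card_target : (target N).card = ModularCurve.cuspCount N := by
  unfold target ModularCurve.cuspCount
  rw [Finset.card_biUnion]
  · refine Finset.sum_congr rfl fun d _ => ?_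
    rw [Finset.card_image_of_injective _ (fun t t' h => (Prod.mk.injEq _ _ _ _ ▸ h).2)]
    exact (Nat.totient_eq_card_coprime _).symm
  · intro d _ d' _ hdd'
    rw [Function.onFun, Finset.disjoint_left]
    intro x hx hx'
    simp only [Finset.mem_image, Finset.mem_filter, Finset.mem_range] at hx hx'
    obtain ⟨t, -, rfl⟩ := hx
    obtain ⟨t', -, h⟩ := hx'
    exact hdd' (Prod.mk.injEq _ _ _ _ ▸ h).1.symm

lemma mem_target {d t : ℕ} :
    (d, t) ∈ target N ↔ d ∈ N.divisors ∧ t < gg N d ∧ (gg N d).Coprime t := by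
  unfold target
  simp only [Finset.mem_biUnion, Finset.mem_image, Finset.mem_filter, Finset.mem_range,
    Prod.mk.injEq]
  constructor
  · rintro ⟨d', hd', t', ⟨ht1, ht2⟩, rfl, rfl⟩
    exact ⟨hd', ht1, ht2⟩
  · rintro ⟨hd, ht1, ht2⟩
    exact ⟨d, hd, t, ⟨ht1, ht2⟩, rfl, rfl⟩

lemma cinv_mem_target [NeZero N] {a c : ℤ} (h : IsCoprime a c) : cinv N a c ∈ target N := by
  unfold cinv
  rw [mem_target]
  have : NeZero (gg N (lev N c)) := ⟨(gg_pos N (lev_pos N c)).ne'⟩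
  refine ⟨Nat.mem_divisors.mpr ⟨lev_dvd N c, NeZero.ne N⟩, ZMod.val_lt _, ?_⟩
  have hu : IsUnit (((a : ℤ) : ZMod (gg N (lev N c))) * ((red N c : ℤ) : ZMod (gg N (lev N c)))⁻¹) := by
    refine (isUnit_num N h).mul ?_
    have h1 := ZMod.mul_inv_of_unit _ (isUnit_red N c)
    exact IsUnit.of_mul_eq_one _ (by rw [mul_comm]; exact h1)
  have := ZMod.val_coe_unit_coprime hu.unit
  rw [IsUnit.unit_spec] at this
  exact this.symm

lemma exists_of_mem_target [NeZero N] {x : ℕ × ℕ} (hx : x ∈ target N) :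
    ∃ a c : ℤ, IsCoprime a c ∧ cinv N a c = x := by
  obtain ⟨d, t⟩ := x
  rw [mem_target] at hx
  obtain ⟨hd, ht1, ht2⟩ := hx
  have hdN : d ∣ N := (Nat.mem_divisors.mp hd).1
  have hdpos : 0 < d := Nat.pos_of_dvd_of_pos hdN (Nat.pos_of_ne_zero (NeZero.ne N))
  have : NeZero d := ⟨hdpos.ne'⟩
  have : NeZero (gg N d) := ⟨(gg_pos N hdpos).ne'⟩
  -- lift the unit `t` of `ZMod (gg N d)` to a unit of `ZMod d`
  obtain ⟨u, hu⟩ := ZMod.unitsMap_surjective (gg_dvd_left N d) (ZMod.unitOfCoprime t ht2.symm)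
  have hu' : ((u : ZMod d).cast : ZMod (gg N d)) = (t : ZMod (gg N d)) := by
    have := congrArg (fun v : (ZMod (gg N d))ˣ => (v : ZMod (gg N d))) hu
    simpa [ZMod.unitsMap_val, ZMod.coe_unitOfCoprime] using this
  set a : ℕ := (u : ZMod d).val with ha
  have hcop : Nat.Coprime a d := ZMod.val_coe_unit_coprime u
  have hcopZ : IsCoprime (a : ℤ) (d : ℤ) := Nat.isCoprime_iff_coprime.mpr hcop
  have hlev : lev N (d : ℤ) = d := by
    unfold lev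
    rw [Int.gcd_natCast_natCast]
    exact Nat.gcd_eq_left hdN
  have hred : red N (d : ℤ) = 1 := by
    unfold red
    rw [hlev]
    exact Int.ediv_self (by exact_mod_cast hdpos.ne')
  refine ⟨a, d, hcopZ, ?_⟩
  unfold cinv
  rw [Prod.mk.injEq]
  refine ⟨hlev, ?_⟩
  unfold tinv
  rw [hred, hlev]
  have h1 : (((a : ℕ) : ℤ) : ZMod (gg N d)) = (t : ZMod (gg N d)) := by
    rw [← hu', ha]
    push_cast
    rw [ZMod.natCast_val]
  rw [h1]
  rw [Int.cast_one, ZMod.inv_one, mul_one, ZMod.val_natCast]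
  exact Nat.mod_eq_of_lt ht1

/-- abstract counting principle -/
lemma card_eq_of_fibers {A Q B : Type*} (q : A → Q) (Φ : A → B) (hq : Function.Surjective q)
    (S : Finset B) (hΦS : ∀ a, Φ a ∈ S) (hS : ∀ b ∈ S, ∃ a, Φ a = b)
    (h : ∀ x y, q x = q y ↔ Φ x = Φ y) : Nat.card Q = S.card := by
  have e : Q ≃ S := by
    refine Equiv.ofBijective (fun z => ⟨Φ (Function.surjInv hq z), hΦS _⟩) ⟨?_, ?_⟩
    · intro z w hzw
      have h1 : Φ (Function.surjInv hq z) = Φ (Function.surjInv hq w) := congrArg Subtype.val hzw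
      have h2 := (h _ _).mpr h1
      rwa [Function.surjInv_eq hq, Function.surjInv_eq hq] at h2
    · rintro ⟨b, hb⟩
      obtain ⟨a, rfl⟩ := hS b hb
      refine ⟨q a, Subtype.ext ?_⟩
      exact (h _ _).mp (Function.surjInv_eq hq (q a))
  rw [Nat.card_congr e]
  simp

lemma isCoprime_col (g : SL(2, ℤ)) : IsCoprime (g 0 0) (g 1 0) := by
  refine ⟨g 1 1, -g 0 1, ?_⟩
  have h := g.det_coe
  rw [Matrix.det_fin_two] at h
  linear_combination h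

/-- the relation on `SL(2,ℤ)` induced by `⟨T⟩`-orbits on `SL(2,ℤ) ⧸ Γ₀(N)` -/
lemma orbit_mk_eq_iff (N : ℕ) (g₁ g₂ : SL(2, ℤ)) :
    (Quotient.mk'' (g₁ : SL(2, ℤ) ⧸ CongruenceSubgroup.Gamma0 N) :
        MulAction.orbitRel.Quotient (Subgroup.zpowers ModularGroup.T)
          (SL(2, ℤ) ⧸ CongruenceSubgroup.Gamma0 N))
      = Quotient.mk'' (g₂ : SL(2, ℤ) ⧸ CongruenceSubgroup.Gamma0 N) ↔
    ∃ k : ℤ, (N : ℤ) ∣ g₂ 0 0 * g₁ 1 0 - g₁ 0 0 * g₂ 1 0 + k * (g₁ 1 0 * g₂ 1 0) := by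
  rw [Quotient.eq'']
  rw [MulAction.orbitRel_apply, MulAction.mem_orbit_iff]
  constructor
  · rintro ⟨⟨t, ht⟩, h⟩
    obtain ⟨k, rfl⟩ := Subgroup.mem_zpowers_iff.mp ht
    replace h : ((ModularGroup.T ^ k * g₂ : SL(2, ℤ)) : SL(2, ℤ) ⧸ CongruenceSubgroup.Gamma0 N)
        = g₁ := h
    rw [QuotientGroup.eq, CongruenceSubgroup.Gamma0_mem, ZMod.intCast_zmod_eq_zero_iff_dvd] at h
    refine ⟨k, ?_⟩
    convert h using 1
    rw [Matrix.SpecialLinearGroup.coe_mul, Matrix.SpecialLinearGroup.coe_inv,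
      Matrix.SpecialLinearGroup.coe_mul, ModularGroup.coe_T_zpow]
    simp [Matrix.mul_apply, Fin.sum_univ_two, Matrix.adjugate_fin_two, Matrix.vecMul,
      dotProduct]
    ring
  · rintro ⟨k, hk⟩
    refine ⟨⟨ModularGroup.T ^ k, Subgroup.zpow_mem_zpowers _ _⟩, ?_⟩
    change ((ModularGroup.T ^ k * g₂ : SL(2, ℤ)) : SL(2, ℤ) ⧸ CongruenceSubgroup.Gamma0 N) = g₁
    rw [QuotientGroup.eq, CongruenceSubgroup.Gamma0_mem, ZMod.intCast_zmod_eq_zero_iff_dvd]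
    convert hk using 1
    rw [Matrix.SpecialLinearGroup.coe_mul, Matrix.SpecialLinearGroup.coe_inv,
      Matrix.SpecialLinearGroup.coe_mul, ModularGroup.coe_T_zpow]
    simp [Matrix.mul_apply, Fin.sum_univ_two, Matrix.adjugate_fin_two, Matrix.vecMul,
      dotProduct]
    ring

/-- **C4**: the number of `⟨T⟩`-orbits on `SL(2,ℤ) ⧸ Γ₀(N)` (the number of cusps of `Γ₀(N)`)
is `∑_{d ∣ N} φ(gcd(d, N/d))`. -/
theorem cuspOrbitCount_Gamma0 (N : ℕ) [NeZero N] :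
    Nat.card (MulAction.orbitRel.Quotient (Subgroup.zpowers ModularGroup.T)
      (SL(2, ℤ) ⧸ CongruenceSubgroup.Gamma0 N)) = ModularCurve.cuspCount N := by
  rw [← card_target N]
  refine card_eq_of_fibers
    (fun g : SL(2, ℤ) => (Quotient.mk'' (g : SL(2, ℤ) ⧸ CongruenceSubgroup.Gamma0 N) :
        MulAction.orbitRel.Quotient (Subgroup.zpowers ModularGroup.T)
          (SL(2, ℤ) ⧸ CongruenceSubgroup.Gamma0 N)))
    (fun g : SL(2, ℤ) => cinv N (g 0 0) (g 1 0)) ?_ (target N) ?_ ?_ ?_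
  · intro z
    induction z using Quotient.inductionOn' with
    | h x =>
      obtain ⟨g, rfl⟩ := QuotientGroup.mk_surjective x
      exact ⟨g, rfl⟩
  · intro g
    exact cinv_mem_target N (isCoprime_col g)
  · intro b hb
    obtain ⟨a, c, hac, rfl⟩ := exists_of_mem_target N hb
    obtain ⟨g, hg0, hg1⟩ := hac.exists_SL2_col 0
    exact ⟨g, by simp only [hg0, hg1]⟩
  · intro g₁ g₂
    rw [orbit_mk_eq_iff, cinv_eq_iff N (isCoprime_col g₁) (isCoprime_col g₂)]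

end Cusps

end Fermat.Agent.S21.C
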