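import Mathlib
import Fermat.Prelude.Def_ModularCurve_GenusNumerics

/-!
# Project ES (S20 + S21), WP-C2 and WP-C3

Fixed points of `S` and of `S * T` on the coset space `SL(2,ℤ) ⧸ Γ₀(N)`:
their numbers are `nuTwo N` and `nuThree N`.

The coset of `g` is determined by the first column `(a : c)` of `g` up to units of `ℤ/N`.
A coset is fixed by `S` (resp. `S * T`) iff `a² + c² ≡ 0` (resp. `a² + a c + c² ≡ 0`) mod `N`;
then `c` is a unit mod `N` and `x = a / c` is a root of `x² + 1` (resp. `x² + x + 1`).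
-/

set_option autoImplicit false

open CongruenceSubgroup
open scoped MatrixGroups

namespace Fermat.Agent.S21.C

/-- The matrix `[[x, -1], [1, 0]]` in `SL(2, ℤ)`. -/
def colMat (x : ℤ) : SL(2, ℤ) :=
  ⟨!![x, -1; 1, 0], by simp [Matrix.det_fin_two]⟩

@[simp] theorem colMat_zero_zero (x : ℤ) : colMat x 0 0 = x := rfl
@[simp] theorem colMat_one_zero (x : ℤ) : colMat x 1 0 = 1 := rfl

/-- Two cosets of `Γ₀(N)` are equal iff the first columns are proportional mod `N`. -/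
theorem mk_eq_mk_iff (N : ℕ) (g g' : SL(2, ℤ)) :
    (g : SL(2, ℤ) ⧸ Gamma0 N) = (g' : SL(2, ℤ) ⧸ Gamma0 N) ↔
      ((g 0 0 * g' 1 0 - g 1 0 * g' 0 0 : ℤ) : ZMod N) = 0 := by
  rw [QuotientGroup.eq, Gamma0_mem]
  have h : (g⁻¹ * g') 1 0 = g 0 0 * g' 1 0 - g 1 0 * g' 0 0 := by
    rw [Matrix.SpecialLinearGroup.coe_mul, Matrix.SpecialLinearGroup.coe_inv,
      Matrix.adjugate_fin_two, Matrix.mul_apply, Fin.sum_univ_two]
    simp
    ring
  rw [h]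

/-- The quadratic form `a² + t a c + c²` vanishing mod `N` on the first column of `g`. -/
def QuadZero (N : ℕ) (t : ℤ) (g : SL(2, ℤ)) : Prop :=
  (((g 0 0) ^ 2 + t * g 0 0 * g 1 0 + (g 1 0) ^ 2 : ℤ) : ZMod N) = 0

/-- The determinant relation of an element of `SL(2, ℤ)`. -/
theorem det_rel (g : SL(2, ℤ)) : g 0 0 * g 1 1 - g 0 1 * g 1 0 = 1 := by
  have h := g.det_coe
  rw [Matrix.det_fin_two] at h
  exact h

/-- If the quadratic form vanishes mod `N` on the first column of `g`, the lower left entry is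
a unit mod `N`. -/
theorem isUnit_of_quadZero (N : ℕ) (t : ℤ) (g : SL(2, ℤ)) (h : QuadZero N t g) :
    IsUnit ((g 1 0 : ℤ) : ZMod N) := by
  have hd := det_rel g
  have hd' : ((g 0 0 : ℤ) : ZMod N) * (g 1 1 : ℤ) - (g 0 1 : ℤ) * (g 1 0 : ℤ) = 1 := by
    have := congrArg (Int.cast : ℤ → ZMod N) hd
    push_cast at this
    exact this
  unfold QuadZero at h
  push_cast at h
  set a : ZMod N := ((g 0 0 : ℤ) : ZMod N) with ha
  set b : ZMod N := ((g 0 1 : ℤ) : ZMod N) with hb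
  set c : ZMod N := ((g 1 0 : ℤ) : ZMod N) with hc
  set d : ZMod N := ((g 1 1 : ℤ) : ZMod N) with hdd
  refine isUnit_iff_exists_inv.mpr
    ⟨-((t : ZMod N) * a + c) * d ^ 2 - 2 * a * b * d + b ^ 2 * c, ?_⟩
  have h1 : (a * d - b * c) ^ 2 = 1 := by rw [hd', one_pow]
  have h2 : a ^ 2 = -(c * ((t : ZMod N) * a + c)) := by
    have : a ^ 2 + (t : ZMod N) * a * c + c ^ 2 = 0 := h
    linear_combination this
  calc c * (-((t : ZMod N) * a + c) * d ^ 2 - 2 * a * b * d + b ^ 2 * c)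
      = (a * d - b * c) ^ 2 - (a ^ 2 + c * ((t : ZMod N) * a + c)) * d ^ 2 := by ring
    _ = 1 := by rw [h1, h2]; ring

/-- The set of cosets on which the quadratic form vanishes is in bijection with the roots of
`x² + t x + 1` in `ZMod N`. -/
theorem card_quadZero (N : ℕ) (t : ℤ) :
    Nat.card {x : SL(2, ℤ) ⧸ Gamma0 N // ∃ g : SL(2, ℤ), (g : SL(2, ℤ) ⧸ Gamma0 N) = x ∧
      QuadZero N t g} = Nat.card {x : ZMod N // x ^ 2 + (t : ZMod N) * x + 1 = 0} := by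
  symm
  let F : {x : ZMod N // x ^ 2 + (t : ZMod N) * x + 1 = 0} →
      {x : SL(2, ℤ) ⧸ Gamma0 N // ∃ g : SL(2, ℤ), (g : SL(2, ℤ) ⧸ Gamma0 N) = x ∧
        QuadZero N t g} :=
    fun x => ⟨(colMat (x.1.cast : ℤ) : SL(2, ℤ) ⧸ Gamma0 N), colMat (x.1.cast : ℤ), rfl, by
      unfold QuadZero
      rw [colMat_zero_zero, colMat_one_zero]
      push_cast
      have := x.2
      linear_combination this⟩
  refine Nat.card_eq_of_bijective F ⟨?_, ?_⟩
  · intro x y hxy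
    have h := congrArg Subtype.val hxy
    have h' : (colMat (x.1.cast : ℤ) : SL(2, ℤ) ⧸ Gamma0 N) = colMat (y.1.cast : ℤ) := h
    rw [mk_eq_mk_iff] at h'
    simp only [colMat_zero_zero, colMat_one_zero] at h'
    push_cast at h'
    apply Subtype.ext
    linear_combination h'
  · rintro ⟨x, g, rfl, hg⟩
    obtain ⟨u, hu⟩ := isUnit_of_quadZero N t g hg
    have hq : ((g 0 0 : ℤ) : ZMod N) ^ 2 + (t : ZMod N) * (g 0 0 : ℤ) * (g 1 0 : ℤ) +
        ((g 1 0 : ℤ) : ZMod N) ^ 2 = 0 := by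
      have := hg
      unfold QuadZero at this
      push_cast at this
      exact this
    have hinv : ((g 1 0 : ℤ) : ZMod N) * (↑u⁻¹ : ZMod N) = 1 := by
      rw [← hu]; exact u.mul_inv
    have hroot : (((g 0 0 : ℤ) : ZMod N) * (↑u⁻¹ : ZMod N)) ^ 2 +
        (t : ZMod N) * (((g 0 0 : ℤ) : ZMod N) * (↑u⁻¹ : ZMod N)) + 1 = 0 := by
      have e : (((g 0 0 : ℤ) : ZMod N) * (↑u⁻¹ : ZMod N)) ^ 2 +
          (t : ZMod N) * (((g 0 0 : ℤ) : ZMod N) * (↑u⁻¹ : ZMod N)) + 1 =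
          (((g 0 0 : ℤ) : ZMod N) ^ 2 + (t : ZMod N) * (g 0 0 : ℤ) * (g 1 0 : ℤ) +
            ((g 1 0 : ℤ) : ZMod N) ^ 2) * (↑u⁻¹ : ZMod N) ^ 2 +
          (1 - ((g 1 0 : ℤ) : ZMod N) * (↑u⁻¹ : ZMod N)) *
            ((t : ZMod N) * (g 0 0 : ℤ) * (↑u⁻¹ : ZMod N) + 1 +
              ((g 1 0 : ℤ) : ZMod N) * (↑u⁻¹ : ZMod N)) := by ring
      rw [e, hq, hinv]
      ring
    refine ⟨⟨((g 0 0 : ℤ) : ZMod N) * (↑u⁻¹ : ZMod N), hroot⟩, ?_⟩
    apply Subtype.ext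
    show (colMat ((((g 0 0 : ℤ) : ZMod N) * (↑u⁻¹ : ZMod N)).cast : ℤ) :
      SL(2, ℤ) ⧸ Gamma0 N) = (g : SL(2, ℤ) ⧸ Gamma0 N)
    rw [mk_eq_mk_iff]
    simp only [colMat_zero_zero, colMat_one_zero]
    push_cast
    have e : ((g 0 0 : ℤ) : ZMod N) * (↑u⁻¹ : ZMod N) * ((g 1 0 : ℤ) : ZMod N) - 1 * (g 0 0 : ℤ) =
        ((g 0 0 : ℤ) : ZMod N) * (((g 1 0 : ℤ) : ZMod N) * (↑u⁻¹ : ZMod N) - 1) := by ring
    rw [e, hinv, sub_self, mul_zero]

/-- A coset is fixed by `h` iff some (any) representative `g` satisfies `h g Γ = g Γ`. -/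
theorem smul_eq_iff_exists (N : ℕ) (h : SL(2, ℤ)) (x : SL(2, ℤ) ⧸ Gamma0 N) (P : SL(2, ℤ) → Prop)
    (hP : ∀ g : SL(2, ℤ), h • (g : SL(2, ℤ) ⧸ Gamma0 N) = g ↔ P g) :
    h • x = x ↔ ∃ g : SL(2, ℤ), (g : SL(2, ℤ) ⧸ Gamma0 N) = x ∧ P g := by
  constructor
  · intro hx
    obtain ⟨g, rfl⟩ := QuotientGroup.mk_surjective x
    exact ⟨g, rfl, (hP g).mp hx⟩
  · rintro ⟨g, rfl, hg⟩
    exact (hP g).mpr hg

/-- Fixed point criterion for `S`. -/
theorem S_smul_mk_eq_iff (N : ℕ) (g : SL(2, ℤ)) :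
    ModularGroup.S • (g : SL(2, ℤ) ⧸ Gamma0 N) = g ↔ QuadZero N 0 g := by
  rw [MulAction.Quotient.smul_mk, smul_eq_mul, mk_eq_mk_iff]
  unfold QuadZero
  have h0 : (ModularGroup.S * g) 0 0 = - g 1 0 := by
    rw [Matrix.SpecialLinearGroup.coe_mul, ModularGroup.coe_S, Matrix.mul_apply,
      Fin.sum_univ_two]
    simp
  have h1 : (ModularGroup.S * g) 1 0 = g 0 0 := by
    rw [Matrix.SpecialLinearGroup.coe_mul, ModularGroup.coe_S, Matrix.mul_apply,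
      Fin.sum_univ_two]
    simp
  rw [h0, h1]
  have e : (-g 1 0 * g 1 0 - g 0 0 * g 0 0 : ℤ) = -((g 0 0) ^ 2 + 0 * g 0 0 * g 1 0 + (g 1 0) ^ 2) := by
    ring
  rw [e, Int.cast_neg, neg_eq_zero]

/-- Fixed point criterion for `S * T`. -/
theorem ST_smul_mk_eq_iff (N : ℕ) (g : SL(2, ℤ)) :
    (ModularGroup.S * ModularGroup.T) • (g : SL(2, ℤ) ⧸ Gamma0 N) = g ↔ QuadZero N 1 g := by
  rw [MulAction.Quotient.smul_mk, smul_eq_mul, mk_eq_mk_iff]
  unfold QuadZero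
  have h0 : (ModularGroup.S * ModularGroup.T * g) 0 0 = - g 1 0 := by
    rw [Matrix.SpecialLinearGroup.coe_mul, Matrix.SpecialLinearGroup.coe_mul, ModularGroup.coe_S,
      ModularGroup.coe_T, Matrix.mul_apply, Fin.sum_univ_two]
    simp
  have h1 : (ModularGroup.S * ModularGroup.T * g) 1 0 = g 0 0 + g 1 0 := by
    rw [Matrix.SpecialLinearGroup.coe_mul, Matrix.SpecialLinearGroup.coe_mul, ModularGroup.coe_S,
      ModularGroup.coe_T, Matrix.mul_apply, Fin.sum_univ_two]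
    simp
  rw [h0, h1]
  have e : (-g 1 0 * g 1 0 - (g 0 0 + g 1 0) * g 0 0 : ℤ) =
      -((g 0 0) ^ 2 + 1 * g 0 0 * g 1 0 + (g 1 0) ^ 2) := by
    ring
  rw [e, Int.cast_neg, neg_eq_zero]

/-- **WP-C2.** The number of fixed points of `S` on `SL(2,ℤ) ⧸ Γ₀(N)` is `nuTwo N`. -/
theorem card_fixed_S_Gamma0 (N : ℕ) :
    Nat.card {x : SL(2, ℤ) ⧸ Gamma0 N // ModularGroup.S • x = x} = ModularCurve.nuTwo N := by
  have h1 : Nat.card {x : SL(2, ℤ) ⧸ Gamma0 N // ModularGroup.S • x = x} =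
      Nat.card {x : SL(2, ℤ) ⧸ Gamma0 N // ∃ g : SL(2, ℤ), (g : SL(2, ℤ) ⧸ Gamma0 N) = x ∧
        QuadZero N 0 g} :=
    Nat.card_congr (Equiv.subtypeEquivRight fun x =>
      smul_eq_iff_exists N ModularGroup.S x _ (S_smul_mk_eq_iff N))
  rw [h1, card_quadZero, ModularCurve.nuTwo]
  refine Nat.card_congr (Equiv.subtypeEquivRight fun x => ?_)
  simp

/-- **WP-C3.** The number of fixed points of `S * T` on `SL(2,ℤ) ⧸ Γ₀(N)` is `nuThree N`. -/
theorem card_fixed_ST_Gamma0 (N : ℕ) :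
    Nat.card {x : SL(2, ℤ) ⧸ Gamma0 N // (ModularGroup.S * ModularGroup.T) • x = x} =
      ModularCurve.nuThree N := by
  have h1 : Nat.card {x : SL(2, ℤ) ⧸ Gamma0 N // (ModularGroup.S * ModularGroup.T) • x = x} =
      Nat.card {x : SL(2, ℤ) ⧸ Gamma0 N // ∃ g : SL(2, ℤ), (g : SL(2, ℤ) ⧸ Gamma0 N) = x ∧
        QuadZero N 1 g} :=
    Nat.card_congr (Equiv.subtypeEquivRight fun x =>
      smul_eq_iff_exists N (ModularGroup.S * ModularGroup.T) x _ (ST_smul_mk_eq_iff N))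
  rw [h1, card_quadZero, ModularCurve.nuThree]
  refine Nat.card_congr (Equiv.subtypeEquivRight fun x => ?_)
  simp

end Fermat.Agent.S21.C
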