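import Fermat.Agent.S21.C.Count

/-!
# Project ES, work package C1: `[SL(2,ℤ) : Γ₀(N)] = ψ(N)`
-/

set_option autoImplicit false

open scoped MatrixGroups

namespace Fermat.Agent.S21.C

open ModularCurve CongruenceSubgroup

/-- **WP-C1**: the index of `Γ₀(N)` in `SL(2,ℤ)` is `ψ(N)`. -/
theorem index_Gamma0 (N : ℕ) [NeZero N] : (Gamma0 N).index = dedekindPsi N := by
  rw [index_Gamma0_eq_card, card_P1_zmod]

end Fermat.Agent.S21.C
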