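import Mathlib

/-!
# Project ES, work package C: the model `SL(2,ℤ) ⧸ Γ₀(N) ≃ ℙ¹(ℤ/N)`

* `P1 R` : the projective line over a commutative ring `R`: pairs `(a, c)` with `IsCoprime a c`
  modulo proportionality `a * c' = c * a'`.
* `MulAction SL(2, ℤ) (P1 R)` : `g • (a : c) = (g₀₀ a + g₀₁ c : g₁₀ a + g₁₁ c)` (column vectors).
* `cosetEquiv N : SL(2, ℤ) ⧸ Gamma0 N ≃ P1 (ZMod N)`, `gΓ₀(N) ↦ (g₀₀ : g₁₀)` (first column of `g`),
  equivariant for the left actions (`cosetEquiv_smul`).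
-/

set_option autoImplicit false

open scoped MatrixGroups

namespace Fermat.Agent.S21.C

universe u

section General

variable (R : Type u) [CommRing R]

/-- Proportionality of primitive pairs. -/
def primSetoid : Setoid {v : R × R // IsCoprime v.1 v.2} where
  r v w := v.1.1 * w.1.2 = v.1.2 * w.1.1
  iseqv :=
    { refl := fun v => mul_comm _ _
      symm := fun {v w} h => by
        have h' : v.1.1 * w.1.2 = v.1.2 * w.1.1 := h
        show w.1.1 * v.1.2 = w.1.2 * v.1.1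
        linear_combination -h'
      trans := fun {v w z} h1 h2 => by
        obtain ⟨u, t, h3⟩ := w.2
        have h1' : v.1.1 * w.1.2 = v.1.2 * w.1.1 := h1
        have h2' : w.1.1 * z.1.2 = w.1.2 * z.1.1 := h2
        show v.1.1 * z.1.2 = v.1.2 * z.1.1
        linear_combination (u * z.1.1 + t * z.1.2) * h1' + (u * v.1.1 + t * v.1.2) * h2'
          - (v.1.1 * z.1.2 - v.1.2 * z.1.1) * h3 }

/-- The projective line over a commutative ring `R`. -/
def P1 : Type u := Quotient (primSetoid R)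

variable {R}

/-- The point `(a : c)` of the projective line. -/
def P1.mk (a c : R) (h : IsCoprime a c) : P1 R := Quotient.mk (primSetoid R) ⟨(a, c), h⟩

theorem P1.mk_eq_mk_iff {a c a' c' : R} (h : IsCoprime a c) (h' : IsCoprime a' c') :
    P1.mk a c h = P1.mk a' c' h' ↔ a * c' = c * a' := by
  constructor
  · intro e
    exact Quotient.exact (s := primSetoid R) e
  · intro e
    exact Quotient.sound (s := primSetoid R) e

theorem P1.mk_eq_mk {a c a' c' : R} (h : IsCoprime a c) (h' : IsCoprime a' c')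
    (e : a * c' = c * a') : P1.mk a c h = P1.mk a' c' h' :=
  (P1.mk_eq_mk_iff h h').2 e

theorem P1.mk_congr {a c a' c' : R} (h : IsCoprime a c) (ha : a = a') (hc : c = c') :
    P1.mk a c h = P1.mk a' c' (ha ▸ hc ▸ h) := by
  subst ha; subst hc; rfl

@[elab_as_elim]
theorem P1.ind {motive : P1 R → Prop} (h : ∀ (a c : R) (hac : IsCoprime a c), motive (P1.mk a c hac))
    (x : P1 R) : motive x := by
  induction x using Quotient.ind with
  | _ v => exact h v.1.1 v.1.2 v.2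

theorem P1.exists_rep (x : P1 R) : ∃ (a c : R) (hac : IsCoprime a c), x = P1.mk a c hac := by
  induction x using P1.ind with
  | _ a c hac => exact ⟨a, c, hac, rfl⟩

/-- the matrix action on pairs preserves primitivity -/
theorem isCoprime_mulVec (g : SL(2, ℤ)) {a c : R} (h : IsCoprime a c) :
    IsCoprime (((g 0 0 : ℤ) : R) * a + ((g 0 1 : ℤ) : R) * c)
      (((g 1 0 : ℤ) : R) * a + ((g 1 1 : ℤ) : R) * c) := by
  obtain ⟨u, t, hut⟩ := h
  have hdet : ((g 0 0 : ℤ) : R) * ((g 1 1 : ℤ) : R) - ((g 0 1 : ℤ) : R) * ((g 1 0 : ℤ) : R) = 1 := by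
    have := g.det_coe
    rw [Matrix.det_fin_two] at this
    have h2 := congrArg (Int.cast : ℤ → R) this
    push_cast at h2
    exact h2
  refine ⟨u * ((g 1 1 : ℤ) : R) - t * ((g 1 0 : ℤ) : R),
    -u * ((g 0 1 : ℤ) : R) + t * ((g 0 0 : ℤ) : R), ?_⟩
  linear_combination (u * a + t * c) * hdet + hut

/-- The action of `SL(2,ℤ)` on primitive pairs (column vectors). -/
def smulPair (g : SL(2, ℤ)) (v : {v : R × R // IsCoprime v.1 v.2}) :
    {v : R × R // IsCoprime v.1 v.2} :=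
  ⟨(((g 0 0 : ℤ) : R) * v.1.1 + ((g 0 1 : ℤ) : R) * v.1.2,
    ((g 1 0 : ℤ) : R) * v.1.1 + ((g 1 1 : ℤ) : R) * v.1.2), isCoprime_mulVec g v.2⟩

theorem smulPair_rel (g : SL(2, ℤ)) (v w : {v : R × R // IsCoprime v.1 v.2})
    (h : (primSetoid R).r v w) : (primSetoid R).r (smulPair g v) (smulPair g w) := by
  have h' : v.1.1 * w.1.2 = v.1.2 * w.1.1 := h
  show (((g 0 0 : ℤ) : R) * v.1.1 + ((g 0 1 : ℤ) : R) * v.1.2) *
      (((g 1 0 : ℤ) : R) * w.1.1 + ((g 1 1 : ℤ) : R) * w.1.2) =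
    (((g 1 0 : ℤ) : R) * v.1.1 + ((g 1 1 : ℤ) : R) * v.1.2) *
      (((g 0 0 : ℤ) : R) * w.1.1 + ((g 0 1 : ℤ) : R) * w.1.2)
  linear_combination (((g 0 0 : ℤ) : R) * ((g 1 1 : ℤ) : R)
    - ((g 0 1 : ℤ) : R) * ((g 1 0 : ℤ) : R)) * h'

/-- The action of `g ∈ SL(2,ℤ)` on `P1 R`. -/
def P1.smul (g : SL(2, ℤ)) (x : P1 R) : P1 R :=
  Quotient.map (sa := primSetoid R) (sb := primSetoid R) (smulPair g) (smulPair_rel g) x

theorem P1.smul_mk' (g : SL(2, ℤ)) (a c : R) (h : IsCoprime a c) :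
    P1.smul g (P1.mk a c h) =
      P1.mk (((g 0 0 : ℤ) : R) * a + ((g 0 1 : ℤ) : R) * c)
        (((g 1 0 : ℤ) : R) * a + ((g 1 1 : ℤ) : R) * c) (isCoprime_mulVec g h) := rfl

instance instMulActionP1 : MulAction SL(2, ℤ) (P1 R) where
  smul := P1.smul
  one_smul x := by
    induction x using P1.ind with
    | _ a c hac =>
      show P1.smul 1 (P1.mk a c hac) = _
      rw [P1.smul_mk']
      apply P1.mk_eq_mk
      simp [mul_comm]
  mul_smul g h x := by
    induction x using P1.ind with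
    | _ a c hac =>
      show P1.smul (g * h) (P1.mk a c hac) = P1.smul g (P1.smul h (P1.mk a c hac))
      rw [P1.smul_mk', P1.smul_mk', P1.smul_mk']
      apply P1.mk_eq_mk
      simp only [Matrix.SpecialLinearGroup.coe_mul, Matrix.mul_apply, Fin.sum_univ_two]
      push_cast
      ring

theorem smul_mk (g : SL(2, ℤ)) (a c : R) (h : IsCoprime a c) :
    g • P1.mk a c h =
      P1.mk (((g 0 0 : ℤ) : R) * a + ((g 0 1 : ℤ) : R) * c)
        (((g 1 0 : ℤ) : R) * a + ((g 1 1 : ℤ) : R) * c) (isCoprime_mulVec g h) := rfl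

theorem isCoprime_neg_swap {a c : R} (h : IsCoprime a c) : IsCoprime (-c) a :=
  (h.symm).neg_left

theorem isCoprime_add_left' {a c : R} (h : IsCoprime a c) : IsCoprime (a + c) c := by
  obtain ⟨u, t, hut⟩ := h
  exact ⟨u, t - u, by linear_combination hut⟩

/-- `S • (a : c) = (-c : a)` -/
theorem S_smul_mk (a c : R) (h : IsCoprime a c) :
    ModularGroup.S • P1.mk a c h = P1.mk (-c) a (isCoprime_neg_swap h) := by
  rw [smul_mk]
  apply P1.mk_eq_mk
  simp [ModularGroup.S, mul_comm]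

/-- `T • (a : c) = (a + c : c)` -/
theorem T_smul_mk (a c : R) (h : IsCoprime a c) :
    ModularGroup.T • P1.mk a c h = P1.mk (a + c) c (isCoprime_add_left' h) := by
  rw [smul_mk]
  apply P1.mk_eq_mk
  simp [ModularGroup.T, mul_comm]

theorem isCoprime_add_mul_left' {a c : R} (h : IsCoprime a c) (n : R) :
    IsCoprime (a + n * c) c := by
  obtain ⟨u, t, hut⟩ := h
  exact ⟨u, t - u * n, by linear_combination hut⟩

/-- `T ^ n • (a : c) = (a + n c : c)` -/
theorem T_zpow_smul_mk (n : ℤ) (a c : R) (h : IsCoprime a c) :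
    (ModularGroup.T ^ n) • P1.mk a c h =
      P1.mk (a + (n : R) * c) c (isCoprime_add_mul_left' h (n : R)) := by
  rw [smul_mk]
  apply P1.mk_eq_mk
  simp [ModularGroup.coe_T_zpow, mul_comm]

/-- the base point `(1 : 0)` -/
def P1.base : P1 R := P1.mk 1 0 isCoprime_one_left

theorem isCoprime_col_cast (g : SL(2, ℤ)) : IsCoprime (((g 0 0 : ℤ) : R)) (((g 1 0 : ℤ) : R)) := by
  have := isCoprime_mulVec (R := R) g (isCoprime_one_left (x := (0 : R)))
  simpa using this

theorem smul_base (g : SL(2, ℤ)) :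
    g • (P1.base : P1 R) = P1.mk (((g 0 0 : ℤ) : R)) (((g 1 0 : ℤ) : R)) (isCoprime_col_cast g) := by
  unfold P1.base
  rw [smul_mk]
  apply P1.mk_eq_mk
  simp [mul_comm]

end General

section ZModN

open CongruenceSubgroup

variable (N : ℕ)

/-- two cosets agree iff the first columns are proportional mod `N` -/
theorem smul_base_eq_iff (g h : SL(2, ℤ)) :
    g • (P1.base : P1 (ZMod N)) = h • (P1.base : P1 (ZMod N)) ↔ g⁻¹ * h ∈ Gamma0 N := by
  rw [smul_base, smul_base, P1.mk_eq_mk_iff, Gamma0_mem]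
  have e : ((g⁻¹ * h : SL(2, ℤ)) 1 0 : ℤ) = g 0 0 * h 1 0 - g 1 0 * h 0 0 := by
    simp only [Matrix.SpecialLinearGroup.coe_mul, Matrix.SpecialLinearGroup.coe_inv,
      Matrix.adjugate_fin_two, Matrix.mul_apply, Fin.sum_univ_two, Matrix.of_apply,
      Matrix.cons_val_zero, Matrix.cons_val_one, Matrix.cons_val', Matrix.cons_val_fin_one]
    ring
  rw [e]
  push_cast
  rw [sub_eq_zero]

/-- elementary lifting lemma: if `gcd(x, N, C) = 1` and `C ≠ 0` there is `k` with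
`gcd(x + k N, C) = 1`. -/
theorem exists_add_mul_coprime (x N C : ℕ) (hC : C ≠ 0)
    (h : ∀ p : ℕ, p.Prime → p ∣ x → p ∣ N → p ∣ C → False) :
    ∃ k : ℕ, (x + k * N).Coprime C := by
  let ps : Finset ℕ := {p ∈ C.primeFactors | ¬p ∣ x}
  use ps.prod id
  apply Nat.coprime_of_dvd
  intro p pp hp hpC
  by_cases hpx : p ∣ x
  · have h1 := Nat.dvd_sub hp hpx
    rw [add_comm, Nat.add_sub_cancel] at h1
    rcases pp.dvd_mul.mp h1 with h2 | h2
    · have ⟨q, hq, hq'⟩ := (pp.prime.dvd_finsetProd_iff id).mp h2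
      rw [Finset.mem_filter, Nat.mem_primeFactors,
        ← (Nat.prime_dvd_prime_iff_eq pp hq.1.1).mp hq'] at hq
      exact hq.2 hpx
    · exact h p pp hpx h2 hpC
  · have pps : p ∈ ps := Finset.mem_filter.mpr ⟨Nat.mem_primeFactors.mpr ⟨pp, hpC, hC⟩, hpx⟩
    have h1 := Nat.dvd_sub hp ((Finset.dvd_prod_of_mem id pps).mul_right N)
    rw [Nat.add_sub_cancel] at h1
    contradiction

/-- every primitive pair mod `N` lifts to a coprime pair of integers -/
theorem exists_coprime_lift [NeZero N] (a c : ZMod N) (h : IsCoprime a c) :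
    ∃ A C : ℤ, IsCoprime A C ∧ ((A : ℤ) : ZMod N) = a ∧ ((C : ℤ) : ZMod N) = c := by
  have hN : N ≠ 0 := NeZero.ne N
  obtain ⟨C, hC0, hCc⟩ : ∃ C : ℕ, C ≠ 0 ∧ ((C : ℕ) : ZMod N) = c := by
    by_cases hc : c.val = 0
    · refine ⟨N, hN, ?_⟩
      rw [ZMod.natCast_self]
      exact ((ZMod.val_eq_zero c).mp hc).symm
    · exact ⟨c.val, hc, ZMod.natCast_zmod_val c⟩
  have key : ∀ p : ℕ, p.Prime → p ∣ a.val → p ∣ N → p ∣ C → False := by
    intro p pp hpa hpN hpC
    obtain ⟨u, t, hut⟩ := h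
    have h1 := congrArg (ZMod.castHom hpN (ZMod p)) hut
    rw [map_add, map_mul, map_mul, map_one] at h1
    have ha0 : ZMod.castHom hpN (ZMod p) a = 0 := by
      rw [← ZMod.natCast_zmod_val a, map_natCast, ZMod.natCast_eq_zero_iff]
      exact hpa
    have hc0 : ZMod.castHom hpN (ZMod p) c = 0 := by
      rw [← hCc, map_natCast, ZMod.natCast_eq_zero_iff]
      exact hpC
    rw [ha0, hc0, mul_zero, mul_zero, add_zero] at h1
    have : Fact p.Prime := ⟨pp⟩
    exact zero_ne_one h1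
  obtain ⟨k, hk⟩ := exists_add_mul_coprime a.val N C hC0 key
  refine ⟨((a.val + k * N : ℕ) : ℤ), (C : ℤ), ?_, ?_, ?_⟩
  · exact Nat.isCoprime_iff_coprime.mpr hk
  · rw [Int.cast_natCast, Nat.cast_add, Nat.cast_mul, ZMod.natCast_self, mul_zero, add_zero,
      ZMod.natCast_zmod_val]
  · rw [Int.cast_natCast, hCc]

/-- `SL(2,ℤ)` acts transitively on `P1 (ZMod N)` -/
theorem exists_smul_base_eq [NeZero N] (x : P1 (ZMod N)) :
    ∃ g : SL(2, ℤ), g • (P1.base : P1 (ZMod N)) = x := by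
  induction x using P1.ind with
  | _ a c hac =>
    obtain ⟨A, C, hAC, hA, hC⟩ := exists_coprime_lift N a c hac
    obtain ⟨g, hg0, hg1⟩ := hAC.exists_SL2_col 0
    refine ⟨g, ?_⟩
    rw [smul_base]
    apply P1.mk_eq_mk
    rw [hg0, hg1, hA, hC, mul_comm]

/-- the map `gΓ₀(N) ↦ (g₀₀ : g₁₀)` -/
def toP1 : SL(2, ℤ) ⧸ Gamma0 N → P1 (ZMod N) :=
  Quotient.lift (s := QuotientGroup.leftRel (Gamma0 N))
    (fun g : SL(2, ℤ) => g • (P1.base : P1 (ZMod N)))
    (fun g h hgh => (smul_base_eq_iff N g h).2 (QuotientGroup.leftRel_apply.mp hgh))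

theorem toP1_mk (g : SL(2, ℤ)) :
    toP1 N (g : SL(2, ℤ) ⧸ Gamma0 N) = g • (P1.base : P1 (ZMod N)) := rfl

theorem toP1_smul (g : SL(2, ℤ)) (x : SL(2, ℤ) ⧸ Gamma0 N) :
    toP1 N (g • x) = g • toP1 N x := by
  induction x using QuotientGroup.induction_on with
  | _ h =>
    rw [MulAction.Quotient.smul_coe, toP1_mk, toP1_mk, smul_eq_mul, mul_smul]

theorem toP1_injective : Function.Injective (toP1 N) := by
  intro x y
  induction x using QuotientGroup.induction_on with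
  | _ g =>
    induction y using QuotientGroup.induction_on with
    | _ h =>
      intro e
      rw [toP1_mk, toP1_mk, smul_base_eq_iff] at e
      exact QuotientGroup.eq.mpr e

theorem toP1_surjective [NeZero N] : Function.Surjective (toP1 N) := by
  intro x
  obtain ⟨g, hg⟩ := exists_smul_base_eq N x
  exact ⟨(g : SL(2, ℤ) ⧸ Gamma0 N), hg⟩

/-- **The model**: `SL(2,ℤ) ⧸ Γ₀(N) ≃ ℙ¹(ℤ/N)`, `gΓ₀(N) ↦ (g₀₀ : g₁₀)`. -/
theorem toP1_bijective [NeZero N] : Function.Bijective (toP1 N) :=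
  ⟨toP1_injective N, toP1_surjective N⟩

noncomputable def cosetEquiv [NeZero N] : SL(2, ℤ) ⧸ Gamma0 N ≃ P1 (ZMod N) :=
  Equiv.ofBijective (toP1 N) (toP1_bijective N)

theorem cosetEquiv_apply [NeZero N] (x : SL(2, ℤ) ⧸ Gamma0 N) :
    cosetEquiv N x = toP1 N x := rfl

theorem cosetEquiv_mk [NeZero N] (g : SL(2, ℤ)) :
    cosetEquiv N (g : SL(2, ℤ) ⧸ Gamma0 N) =
      P1.mk (((g 0 0 : ℤ) : ZMod N)) (((g 1 0 : ℤ) : ZMod N)) (isCoprime_col_cast g) := by
  rw [cosetEquiv_apply, toP1_mk, smul_base]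

/-- the model is equivariant for the left actions of `SL(2,ℤ)` -/
theorem cosetEquiv_smul [NeZero N] (g : SL(2, ℤ)) (x : SL(2, ℤ) ⧸ Gamma0 N) :
    cosetEquiv N (g • x) = g • cosetEquiv N x :=
  toP1_smul N g x

theorem cosetEquiv_symm_smul [NeZero N] (g : SL(2, ℤ)) (y : P1 (ZMod N)) :
    (cosetEquiv N).symm (g • y) = g • (cosetEquiv N).symm y := by
  apply (cosetEquiv N).injective
  rw [cosetEquiv_smul, Equiv.apply_symm_apply, Equiv.apply_symm_apply]

/-- the index of `Γ₀(N)` is the cardinality of `ℙ¹(ℤ/N)` -/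
theorem index_Gamma0_eq_card [NeZero N] : (Gamma0 N).index = Nat.card (P1 (ZMod N)) := by
  rw [Subgroup.index]
  exact Nat.card_congr (cosetEquiv N)

/-- fixed points of `g` on the coset space correspond to fixed points on `ℙ¹(ℤ/N)` -/
noncomputable def fixedEquiv [NeZero N] (g : SL(2, ℤ)) :
    {x : SL(2, ℤ) ⧸ Gamma0 N // g • x = x} ≃ {y : P1 (ZMod N) // g • y = y} :=
  (cosetEquiv N).subtypeEquiv (fun x => by
    rw [← cosetEquiv_smul]
    exact ((cosetEquiv N).injective.eq_iff).symm)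

/-- `⟨T⟩`-orbits on the coset space correspond to `⟨T⟩`-orbits on `ℙ¹(ℤ/N)` -/
noncomputable def orbitQuotEquiv [NeZero N] (H : Subgroup SL(2, ℤ)) :
    MulAction.orbitRel.Quotient H (SL(2, ℤ) ⧸ Gamma0 N) ≃
      MulAction.orbitRel.Quotient H (P1 (ZMod N)) :=
  Quotient.congr (cosetEquiv N) (by
    intro x y
    change (x ∈ MulAction.orbit H y) ↔ (cosetEquiv N x ∈ MulAction.orbit H (cosetEquiv N y))
    constructor
    · rintro ⟨h, rfl⟩
      refine ⟨h, ?_⟩
      show (h : SL(2, ℤ)) • cosetEquiv N y = cosetEquiv N ((h : SL(2, ℤ)) • y)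
      rw [cosetEquiv_smul]
    · rintro ⟨h, hh⟩
      refine ⟨h, ?_⟩
      apply (cosetEquiv N).injective
      rw [← hh]
      show cosetEquiv N ((h : SL(2, ℤ)) • y) = (h : SL(2, ℤ)) • cosetEquiv N y
      rw [cosetEquiv_smul])

end ZModN

end Fermat.Agent.S21.C
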